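import Mathlib
import Fermat.Prelude.Def_ModularCurve_LaurentCoeff

/-!
# S17 / G-DIV piece DER (helper770): the coefficientwise derivation on Laurent series

For a derivation `d` of a field `L` (over any base ring `R`), `laurentDer d` is the additive map
of `L((q))` acting coefficientwise; it satisfies the Leibniz rule (`laurentDer_mul`), kills
`coeffEmb L x` (series with rational coefficients), extends `d` on constants, does not lower the
`q`-adic order and preserves every `laurentBaseChange L F₀`.  `fieldDer d F₀` is the induced
derivation of the field `laurentBaseChange L F₀`.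
-/

set_option autoImplicit false

namespace Fermat.Agent.S17.H770

open HahnSeries ModularCurve

section Laurent

variable {R L : Type*} [CommRing R] [Field L] [Algebra R L]

/-- The coefficientwise map of `L((q))` attached to a derivation of `L`. -/
noncomputable def laurentDer (d : Derivation R L L) : LaurentSeries L →+ LaurentSeries L where
  toFun x := x.map d
  map_zero' := by
    ext k
    simp
  map_add' x y := by
    ext k
    simp

@[simp]
theorem laurentDer_coeff (d : Derivation R L L) (x : LaurentSeries L) (k : ℤ) :
    (laurentDer d x).coeff k = d (x.coeff k) :=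
  rfl

theorem support_laurentDer_subset (d : Derivation R L L) (x : LaurentSeries L) :
    (laurentDer d x).support ⊆ x.support := by
  intro k hk
  rw [HahnSeries.mem_support] at hk ⊢
  intro h
  exact hk (by rw [laurentDer_coeff, h, map_zero])

/-- Leibniz rule. -/
theorem laurentDer_mul (d : Derivation R L L) (x y : LaurentSeries L) :
    laurentDer d (x * y) = x * laurentDer d y + y * laurentDer d x := by
  ext k
  rw [laurentDer_coeff, HahnSeries.coeff_add, HahnSeries.coeff_mul,
    HahnSeries.coeff_mul_right' y.isPWO_support (support_laurentDer_subset d y),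
    mul_comm y (laurentDer d x),
    HahnSeries.coeff_mul_left' x.isPWO_support (support_laurentDer_subset d x),
    map_sum, ← Finset.sum_add_distrib]
  refine Finset.sum_congr rfl fun ij _ => ?_
  simp only [Derivation.leibniz, laurentDer_coeff, smul_eq_mul]
  ring

theorem laurentDer_eq_zero_iff (d : Derivation R L L) (x : LaurentSeries L) :
    laurentDer d x = 0 ↔ ∀ k, d (x.coeff k) = 0 := by
  constructor
  · intro h k
    rw [← laurentDer_coeff, h, HahnSeries.coeff_zero]
  · intro h
    ext k
    rw [laurentDer_coeff, h, HahnSeries.coeff_zero]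

theorem laurentDer_single (d : Derivation R L L) (k : ℤ) (c : L) :
    laurentDer d (HahnSeries.single k c) = HahnSeries.single k (d c) := by
  ext m
  rcases eq_or_ne m k with rfl | hm
  · simp [HahnSeries.coeff_single_same]
  · simp [HahnSeries.coeff_single_of_ne hm]

theorem laurentDer_algebraMap (d : Derivation R L L) (c : L) :
    laurentDer d (algebraMap L (LaurentSeries L) c) = algebraMap L (LaurentSeries L) (d c) := by
  rw [algebraMap_laurentSeries_eq_single, algebraMap_laurentSeries_eq_single, laurentDer_single]

@[simp]
theorem laurentDer_one (d : Derivation R L L) : laurentDer d (1 : LaurentSeries L) = 0 := by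
  have h := laurentDer_algebraMap d 1
  rwa [map_one, Derivation.map_one_eq_zero, map_zero] at h

theorem laurentDer_inv (d : Derivation R L L) (x : LaurentSeries L) :
    laurentDer d x⁻¹ = -(x⁻¹ ^ 2 * laurentDer d x) := by
  rcases eq_or_ne x 0 with rfl | hx
  · simp
  · have h := laurentDer_mul d x x⁻¹
    rw [mul_inv_cancel₀ hx, laurentDer_one] at h
    have h2 : x * laurentDer d x⁻¹ = -(x⁻¹ * laurentDer d x) := eq_neg_of_add_eq_zero_left h.symm
    have h3 : laurentDer d x⁻¹ = x⁻¹ * (x * laurentDer d x⁻¹) := by
      rw [← mul_assoc, inv_mul_cancel₀ hx, one_mul]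
    rw [h3, h2]
    ring

/-- The coefficientwise derivation does not lower the `q`-adic order. -/
theorem order_le_order_laurentDer (d : Derivation R L L) (x : LaurentSeries L)
    (h : laurentDer d x ≠ 0) : x.order ≤ (laurentDer d x).order := by
  have hc : (laurentDer d x).coeff (laurentDer d x).order ≠ 0 :=
    fun h0 => h (HahnSeries.coeff_order_eq_zero.1 h0)
  exact HahnSeries.order_le_of_coeff_ne_zero (fun h0 => hc (by
    rw [laurentDer_coeff, h0, map_zero]))

/-- A derivation of a field kills the image of `ℚ`. -/
theorem derivation_algebraMap_rat [Algebra ℚ L] (d : Derivation R L L) (r : ℚ) :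
    d (algebraMap ℚ L r) = 0 := by
  have h : algebraMap ℚ L r = (r.num : L) / (r.den : L) := by
    rw [eq_ratCast, Rat.cast_def]
  rw [h, Derivation.leibniz_div, Derivation.map_intCast, Derivation.map_natCast]
  simp

/-- The coefficientwise derivation kills series with rational coefficients. -/
theorem laurentDer_coeffEmb [Algebra ℚ L] (d : Derivation R L L) (x : LaurentSeries ℚ) :
    laurentDer d (coeffEmb L x) = 0 := by
  ext k
  rw [laurentDer_coeff, coeffEmb_coeff, derivation_algebraMap_rat, HahnSeries.coeff_zero]

/-- The coefficientwise derivation preserves `laurentBaseChange L F₀`. -/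
theorem laurentDer_mem_laurentBaseChange [Algebra ℚ L] (d : Derivation R L L)
    (F₀ : IntermediateField ℚ (LaurentSeries ℚ)) {x : LaurentSeries L}
    (hx : x ∈ laurentBaseChange L F₀) : laurentDer d x ∈ laurentBaseChange L F₀ := by
  rw [mem_laurentBaseChange_iff] at hx
  induction hx using Subfield.closure_induction with
  | mem y hy =>
      rcases hy with ⟨a, rfl⟩ | ⟨z, hz, rfl⟩
      · rw [laurentDer_algebraMap]
        exact (laurentBaseChange L F₀).algebraMap_mem _
      · rw [laurentDer_coeffEmb]
        exact zero_mem _
  | one => simp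
  | add x y _ _ hx hy => simpa using add_mem hx hy
  | neg x _ hx => simpa using neg_mem hx
  | inv x hx' hx =>
      rw [← mem_laurentBaseChange_iff] at hx'
      rw [laurentDer_inv]
      exact neg_mem (mul_mem (pow_mem (inv_mem hx') 2) hx)
  | mul x y hx' hy' hx hy =>
      rw [← mem_laurentBaseChange_iff] at hx' hy'
      rw [laurentDer_mul]
      exact add_mem (mul_mem hx' hy) (mul_mem hy' hx)

end Laurent

section BaseChange

variable {R L : Type*} [CommRing R] [Field L] [Algebra R L] [Algebra ℚ L]

/-- The derivation of the function field `F_L = laurentBaseChange L F₀` induced by a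
derivation of the constant field `L` (coefficientwise on `q`-expansions). -/
noncomputable def fieldDer (d : Derivation R L L) (F₀ : IntermediateField ℚ (LaurentSeries ℚ)) :
    Derivation ℤ (laurentBaseChange L F₀) (laurentBaseChange L F₀) :=
  Derivation.mk'
    (AddMonoidHom.toIntLinearMap
      { toFun := fun x => ⟨laurentDer d x, laurentDer_mem_laurentBaseChange d F₀ x.2⟩
        map_zero' := Subtype.ext (by simp)
        map_add' := fun x y => Subtype.ext (by simp) })
    (fun x y => Subtype.ext (by
      change laurentDer d ((x : LaurentSeries L) * y) = _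
      rw [laurentDer_mul]
      rfl))

@[simp]
theorem fieldDer_coe (d : Derivation R L L) (F₀ : IntermediateField ℚ (LaurentSeries ℚ))
    (x : laurentBaseChange L F₀) :
    ((fieldDer d F₀ x : laurentBaseChange L F₀) : LaurentSeries L) = laurentDer d x :=
  rfl

theorem fieldDer_mul (d : Derivation R L L) (F₀ : IntermediateField ℚ (LaurentSeries ℚ))
    (x y : laurentBaseChange L F₀) :
    fieldDer d F₀ (x * y) = x * fieldDer d F₀ y + y * fieldDer d F₀ x := by
  rw [Derivation.leibniz, smul_eq_mul, smul_eq_mul]

theorem fieldDer_algebraMap (d : Derivation R L L) (F₀ : IntermediateField ℚ (LaurentSeries ℚ))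
    (c : L) :
    fieldDer d F₀ (algebraMap L (laurentBaseChange L F₀) c) =
      algebraMap L (laurentBaseChange L F₀) (d c) :=
  Subtype.ext (laurentDer_algebraMap d c)

theorem fieldDer_coeffEmb (d : Derivation R L L) (F₀ : IntermediateField ℚ (LaurentSeries ℚ))
    {x : LaurentSeries ℚ} (hx : x ∈ F₀) :
    fieldDer d F₀ ⟨coeffEmb L x, coeffEmb_mem_laurentBaseChange L hx⟩ = 0 :=
  Subtype.ext (laurentDer_coeffEmb d x)

theorem fieldDer_inv (d : Derivation R L L) (F₀ : IntermediateField ℚ (LaurentSeries ℚ))
    (x : laurentBaseChange L F₀) :
    fieldDer d F₀ x⁻¹ = -(x⁻¹ ^ 2 * fieldDer d F₀ x) := by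
  rw [Derivation.leibniz_inv, smul_eq_mul, neg_mul]

theorem fieldDer_eq_zero_iff (d : Derivation R L L) (F₀ : IntermediateField ℚ (LaurentSeries ℚ))
    (x : laurentBaseChange L F₀) :
    fieldDer d F₀ x = 0 ↔ ∀ k, d ((x : LaurentSeries L).coeff k) = 0 := by
  rw [← laurentDer_eq_zero_iff, Subtype.ext_iff]
  rfl

end BaseChange

end Fermat.Agent.S17.H770
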