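import Mathlib
import Fermat.Agent.Lib.RR.Ord

/-!
# S17 / G-DIV piece DER (helper770): derivations and places (abstract layer)

`F/K` a field extension, `v : Place K F`, `D` a derivation of `F` (over `ℤ`).

* `DIntegral D v` : `D (O_v) ⊆ O_v`;  `DStable D v` : moreover `D (𝔪_v) ⊆ 𝔪_v`.
* `dIntegral_of_approx`, `dStable_of_approx` : both properties can be checked on a subring `R`
  of which `O_v` is a localisation.
* `ord_le_ord_der` : `D f = 0 ∨ ord_v f - 1 ≤ ord_v (D f)` (logarithmic derivatives have at most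
  simple poles);  `ord_le_ord_der_of_dStable` : no pole at all at a `D`-stable place.
* `dStable_of_der_eq_zero` : (characteristic `0`) a zero or pole of a `D`-constant function is a
  `D`-stable place.
* `der_const_eq_zero_of_dStable` : at a `D`-stable place the value of a `D`-constant function is
  a constant of the derivation induced on `K`.
-/

set_option autoImplicit false

open AlgebraicCurve

namespace Fermat.Agent.S17.H770

open Fermat.Agent.Lib.RR

variable {K F : Type*} [Field K] [Field F] [Algebra K F]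

/-- `D` maps the valuation ring of `v` into itself. -/
def DIntegral (D : Derivation ℤ F F) (v : Place K F) : Prop :=
  ∀ f : F, 0 ≤ v.ord f → 0 ≤ v.ord (D f)

/-- `D` maps the valuation ring and the maximal ideal of `v` into themselves. -/
def DStable (D : Derivation ℤ F F) (v : Place K F) : Prop :=
  DIntegral D v ∧ ∀ f : F, 0 < v.ord f → D f = 0 ∨ 0 < v.ord (D f)

section Approx

variable (D : Derivation ℤ F F) (v : Place K F)

theorem ord_div_eq (v : Place K F) {a b : F} (ha : a ≠ 0) (hb : b ≠ 0) :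
    v.ord (a / b) = v.ord a - v.ord b := by
  rw [div_eq_mul_inv, v.ord_mul ha (inv_ne_zero hb), v.ord_inv]
  ring

/-- `D (a / b) ∈ O_v` when `a, b, D a, D b ∈ O_v` and `b` is a unit at `v`. -/
theorem ord_der_div_nonneg {a b : F} (hb0 : v.ord b = 0)
    (ha : 0 ≤ v.ord a) (hDa : 0 ≤ v.ord (D a)) (hDb : 0 ≤ v.ord (D b)) :
    0 ≤ v.ord (D (a / b)) := by
  have hbi : b⁻¹ ∈ v.toValuationSubring :=
    mem_of_ord_nonneg v (by rw [v.ord_inv, hb0]; simp)
  have hmem : D (a / b) ∈ v.toValuationSubring := by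
    rw [Derivation.leibniz_div, smul_eq_mul, smul_eq_mul, smul_eq_mul]
    exact mul_mem (pow_mem hbi 2) (sub_mem
      (mul_mem (mem_of_ord_nonneg v (by rw [hb0])) (mem_of_ord_nonneg v hDa))
      (mul_mem (mem_of_ord_nonneg v ha) (mem_of_ord_nonneg v hDb)))
  exact ord_nonneg_of_mem v hmem

/-- `D` preserves `O_v` as soon as it does so on a set `R` of which `O_v` is a localisation. -/
theorem dIntegral_of_approx (R : Set F)
    (hR : ∀ a ∈ R, 0 ≤ v.ord a → 0 ≤ v.ord (D a))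
    (happ : ∀ f : F, 0 ≤ v.ord f → ∃ a ∈ R, ∃ b ∈ R, b ≠ 0 ∧ v.ord b = 0 ∧ 0 ≤ v.ord a ∧
      f = a / b) :
    DIntegral D v := by
  intro f hf
  obtain ⟨a, haR, b, hbR, hb, hb0, ha, rfl⟩ := happ f hf
  exact ord_der_div_nonneg D v hb0 ha (hR a haR ha) (hR b hbR hb0.ge)

/-- `D` preserves `𝔪_v` as soon as it does so on a set `R` of which `O_v` is a localisation. -/
theorem dStable_of_approx (R : Set F)
    (hR : ∀ a ∈ R, 0 ≤ v.ord a → 0 ≤ v.ord (D a))
    (hRm : ∀ a ∈ R, 0 < v.ord a → D a = 0 ∨ 0 < v.ord (D a))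
    (happ : ∀ f : F, 0 ≤ v.ord f → ∃ a ∈ R, ∃ b ∈ R, b ≠ 0 ∧ v.ord b = 0 ∧ 0 ≤ v.ord a ∧
      f = a / b) :
    DStable D v := by
  refine ⟨dIntegral_of_approx D v R hR happ, fun f hf => ?_⟩
  obtain ⟨a, haR, b, hbR, hb, hb0, ha, rfl⟩ := happ f hf.le
  have ha0 : a ≠ 0 := by
    rintro rfl
    simp at hf
  have hapos : 0 < v.ord a := by
    rw [ord_div_eq v ha0 hb, hb0, sub_zero] at hf
    exact hf
  by_cases h0 : D (a / b) = 0
  · exact Or.inl h0
  right
  -- D (a/b) = (D a) / b - (a / b) * (D b / b)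
  have hbi : v.ord b⁻¹ = 0 := by rw [v.ord_inv, hb0]; simp
  have hDb : 0 ≤ v.ord (D b) := hR b hbR hb0.ge
  have hkey : D (a / b) = D a * b⁻¹ + -(a * (b⁻¹ ^ 2 * D b)) := by
    rw [Derivation.leibniz_div, smul_eq_mul, smul_eq_mul, smul_eq_mul]
    field_simp
    ring
  have h1 : D a * b⁻¹ = 0 ∨ 1 ≤ v.ord (D a * b⁻¹) := by
    rcases hRm a haR hapos with h | h
    · left; rw [h, zero_mul]
    · right
      have hDa0 : D a ≠ 0 := ne_zero_of_ord_ne_zero v h.ne'
      rw [v.ord_mul hDa0 (inv_ne_zero hb), hbi, add_zero]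
      omega
  have h2 : -(a * (b⁻¹ ^ 2 * D b)) = 0 ∨ 1 ≤ v.ord (-(a * (b⁻¹ ^ 2 * D b))) := by
    by_cases hDb0 : D b = 0
    · left; rw [hDb0]; simp
    · right
      rw [ord_neg, v.ord_mul ha0 (mul_ne_zero (pow_ne_zero 2 (inv_ne_zero hb)) hDb0),
        v.ord_mul (pow_ne_zero 2 (inv_ne_zero hb)) hDb0, ord_pow, hbi]
      push_cast
      omega
  have h3 := ord_add_of_le v h1 h2
  rw [← hkey] at h3
  rcases h3 with h3 | h3
  · exact absurd h3 h0
  · omega

end Approx

section LogDer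

variable (D : Derivation ℤ F F) (v : Place K F)

/-- `D (π ^ n) = n π ^ (n-1) D π` for integer exponents. -/
theorem der_zpow (π : F) (hπ : π ≠ 0) (n : ℤ) :
    D (π ^ n) = (n : F) * π ^ (n - 1) * D π := by
  induction n using Int.induction_on with
  | zero => simp
  | succ k ih =>
      have h1 : π ^ ((k : ℤ) + 1) = π ^ (k : ℤ) * π := zpow_add_one₀ hπ _
      rw [h1, Derivation.leibniz, ih, smul_eq_mul, smul_eq_mul, add_sub_cancel_right]
      have h2 : π ^ (k : ℤ) = π ^ ((k : ℤ) - 1) * π := by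
        rw [← zpow_add_one₀ hπ, sub_add_cancel]
      rw [h2]
      push_cast
      ring
  | pred k ih =>
      have h1 : π ^ (-(k : ℤ) - 1) = π ^ (-(k : ℤ)) * π⁻¹ := zpow_sub_one₀ hπ _
      rw [h1, Derivation.leibniz, ih, Derivation.leibniz_inv, smul_eq_mul, smul_eq_mul,
        smul_eq_mul]
      have h2 : π ^ (-(k : ℤ) - 1 - 1) = π ^ (-(k : ℤ)) * π⁻¹ * π⁻¹ := by
        rw [zpow_sub_one₀ hπ, zpow_sub_one₀ hπ]
      have h3 : π ^ (-(k : ℤ) - 1) = π ^ (-(k : ℤ)) * π⁻¹ := zpow_sub_one₀ hπ _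
      rw [h2, h3]
      push_cast
      ring

theorem ord_intCast_mul (v : Place K F) [CharZero F] (n : ℤ) (hn : n ≠ 0) {x : F} (hx : x ≠ 0) :
    v.ord ((n : F) * x) = v.ord x := by
  have h1 : (n : F) = algebraMap K F (n : K) := (map_intCast _ n).symm
  have h2 : (n : F) ≠ 0 := by exact_mod_cast hn
  rw [v.ord_mul h2 hx, h1, ord_algebraMap, zero_add]

/-- `D (u π ^ n) = π ^ (n-1) (π D u + n u D π)`. -/
theorem der_mul_zpow (u π : F) (hπ : π ≠ 0) (n : ℤ) :
    D (u * π ^ n) = π ^ (n - 1) * (π * D u + (n : F) * u * D π) := by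
  rw [Derivation.leibniz, der_zpow D π hπ, smul_eq_mul, smul_eq_mul]
  have h2 : π ^ n = π ^ (n - 1) * π := by
    rw [← zpow_add_one₀ hπ, sub_add_cancel]
  rw [h2]
  ring

/-- Decomposition `f = u π ^ n` with `u` a unit at `v`. -/
theorem exists_unit_mul_zpow' (v : Place K F) {π : F} (hπ : v.ord π = 1) {f : F} (hf : f ≠ 0) :
    ∃ u : F, u ≠ 0 ∧ v.ord u = 0 ∧ f = u * π ^ (v.ord f) := by
  have hπ0 : π ≠ 0 := ne_zero_of_ord_ne_zero v (by rw [hπ]; norm_num)
  refine ⟨f * π ^ (-(v.ord f)), mul_ne_zero hf (zpow_ne_zero _ hπ0), ?_, ?_⟩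
  · rw [v.ord_mul hf (zpow_ne_zero _ hπ0), v.ord_zpow, hπ]
    ring
  · rw [mul_assoc, ← zpow_add₀ hπ0]
    simp

theorem intCast_mem (v : Place K F) (n : ℤ) : (n : F) ∈ v.toValuationSubring := by
  have h1 : (n : F) = algebraMap K F (n : K) := (map_intCast _ n).symm
  rw [h1]
  exact v.algebraMap_mem' _

/-- Logarithmic derivatives have at most simple poles: `ord_v (D f) ≥ ord_v f - 1`. -/
theorem ord_le_ord_der (hD : DIntegral D v) {f : F} (hf : f ≠ 0) :
    D f = 0 ∨ v.ord f - 1 ≤ v.ord (D f) := by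
  by_cases h0 : D f = 0
  · exact Or.inl h0
  right
  obtain ⟨π, hπ⟩ := exists_ord_eq_one v
  have hπ0 : π ≠ 0 := ne_zero_of_ord_ne_zero v (by rw [hπ]; norm_num)
  obtain ⟨u, hu0, hordu, hfu⟩ := exists_unit_mul_zpow' v hπ hf
  have hDu : 0 ≤ v.ord (D u) := hD u hordu.ge
  have hDπ : 0 ≤ v.ord (D π) := hD π (by rw [hπ]; norm_num)
  have hkey : D f = π ^ (v.ord f - 1) * (π * D u + ((v.ord f : ℤ) : F) * u * D π) := by
    conv_lhs => rw [hfu]
    exact der_mul_zpow D u π hπ0 _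
  have hin : π * D u + ((v.ord f : ℤ) : F) * u * D π ∈ v.toValuationSubring :=
    add_mem (mul_mem (mem_of_ord_nonneg v (by rw [hπ]; norm_num))
      (mem_of_ord_nonneg v hDu)) (mul_mem (mul_mem (intCast_mem v _)
      (mem_of_ord_nonneg v hordu.ge)) (mem_of_ord_nonneg v hDπ))
  have hne : π * D u + ((v.ord f : ℤ) : F) * u * D π ≠ 0 := by
    intro h
    rw [h, mul_zero] at hkey
    exact h0 hkey
  have h5 := congrArg v.ord hkey
  rw [v.ord_mul (zpow_ne_zero _ hπ0) hne, v.ord_zpow, hπ] at h5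
  have := ord_nonneg_of_mem v hin
  omega

/-- At a `D`-stable place logarithmic derivatives have no pole: `ord_v (D f) ≥ ord_v f`. -/
theorem ord_le_ord_der_of_dStable (hD : DStable D v) {f : F} (hf : f ≠ 0) :
    D f = 0 ∨ v.ord f ≤ v.ord (D f) := by
  by_cases h0 : D f = 0
  · exact Or.inl h0
  right
  obtain ⟨π, hπ⟩ := exists_ord_eq_one v
  have hπ0 : π ≠ 0 := ne_zero_of_ord_ne_zero v (by rw [hπ]; norm_num)
  obtain ⟨u, hu0, hordu, hfu⟩ := exists_unit_mul_zpow' v hπ hf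
  have hDu : 0 ≤ v.ord (D u) := hD.1 u hordu.ge
  have hDπ : D π = 0 ∨ 0 < v.ord (D π) := hD.2 π (by rw [hπ]; norm_num)
  -- D π = π * w with w integral
  obtain ⟨w, hw, hDπw⟩ : ∃ w : F, w ∈ v.toValuationSubring ∧ D π = π * w := by
    rcases hDπ with h | h
    · exact ⟨0, zero_mem _, by rw [h, mul_zero]⟩
    · refine ⟨D π * π⁻¹, mem_of_ord_nonneg v ?_, by field_simp⟩
      have hDπ0 : D π ≠ 0 := ne_zero_of_ord_ne_zero v h.ne'
      rw [v.ord_mul hDπ0 (inv_ne_zero hπ0), v.ord_inv, hπ]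
      omega
  have hkey : D f = π ^ (v.ord f) * (D u + ((v.ord f : ℤ) : F) * u * w) := by
    conv_lhs => rw [hfu]
    rw [der_mul_zpow D u π hπ0, hDπw]
    have h2 : π ^ (v.ord f) = π ^ (v.ord f - 1) * π := by
      rw [← zpow_add_one₀ hπ0, sub_add_cancel]
    rw [h2]
    ring
  have hin : D u + ((v.ord f : ℤ) : F) * u * w ∈ v.toValuationSubring :=
    add_mem (mem_of_ord_nonneg v hDu) (mul_mem (mul_mem (intCast_mem v _)
      (mem_of_ord_nonneg v hordu.ge)) hw)
  have hne : D u + ((v.ord f : ℤ) : F) * u * w ≠ 0 := by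
    intro h
    rw [h, mul_zero] at hkey
    exact h0 hkey
  have h5 := congrArg v.ord hkey
  rw [v.ord_mul (zpow_ne_zero _ hπ0) hne, v.ord_zpow, hπ] at h5
  have := ord_nonneg_of_mem v hin
  omega

/-- `D`-stability can be checked on one uniformizer. -/
theorem dStable_of_uniformizer (hD : DIntegral D v) {π : F} (hπ : v.ord π = 1)
    (hDπ : D π = 0 ∨ 0 < v.ord (D π)) : DStable D v := by
  refine ⟨hD, fun f hf => ?_⟩
  by_cases h0 : D f = 0
  · exact Or.inl h0
  right
  have hπ0 : π ≠ 0 := ne_zero_of_ord_ne_zero v (by rw [hπ]; norm_num)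
  have hf0 : f ≠ 0 := ne_zero_of_ord_ne_zero v hf.ne'
  set g := f * π⁻¹ with hg
  have hg0 : g ≠ 0 := mul_ne_zero hf0 (inv_ne_zero hπ0)
  have hgord : 0 ≤ v.ord g := by
    rw [hg, v.ord_mul hf0 (inv_ne_zero hπ0), v.ord_inv, hπ]
    omega
  have hfg : f = π * g := by rw [hg]; field_simp
  have hkey : D f = π * D g + g * D π := by
    conv_lhs => rw [hfg]
    rw [Derivation.leibniz, smul_eq_mul, smul_eq_mul]
  have h1 : π * D g = 0 ∨ 1 ≤ v.ord (π * D g) := by
    by_cases hDg : D g = 0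
    · left; rw [hDg, mul_zero]
    · right
      rw [v.ord_mul hπ0 hDg, hπ]
      have := hD g hgord
      omega
  have h2 : g * D π = 0 ∨ 1 ≤ v.ord (g * D π) := by
    rcases hDπ with h | h
    · left; rw [h, mul_zero]
    · right
      have hDπ0 : D π ≠ 0 := ne_zero_of_ord_ne_zero v h.ne'
      rw [v.ord_mul hg0 hDπ0]
      omega
  have h3 := ord_add_of_le v h1 h2
  rw [← hkey] at h3
  rcases h3 with h3 | h3
  · exact absurd h3 h0
  · omega

/-- Characteristic `0`: a zero or pole of a `D`-constant function is a `D`-stable place. -/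
theorem dStable_of_der_eq_zero [CharZero F] (hD : DIntegral D v) {f : F} (hDf : D f = 0)
    (hf : v.ord f ≠ 0) : DStable D v := by
  obtain ⟨π, hπ⟩ := exists_ord_eq_one v
  have hπ0 : π ≠ 0 := ne_zero_of_ord_ne_zero v (by rw [hπ]; norm_num)
  have hf0 : f ≠ 0 := ne_zero_of_ord_ne_zero v hf
  refine dStable_of_uniformizer D v hD hπ ?_
  by_cases hDπ0 : D π = 0
  · exact Or.inl hDπ0
  right
  obtain ⟨u, hu0, hordu, hfu⟩ := exists_unit_mul_zpow' v hπ hf0
  have hDu : 0 ≤ v.ord (D u) := hD u hordu.ge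
  have hkey : π ^ (v.ord f - 1) * (π * D u + ((v.ord f : ℤ) : F) * u * D π) = 0 := by
    rw [← der_mul_zpow D u π hπ0, ← hfu, hDf]
  have hkey2 : ((v.ord f : ℤ) : F) * (u * D π) = -(π * D u) := by
    rcases mul_eq_zero.1 hkey with h | h
    · exact absurd h (zpow_ne_zero _ hπ0)
    · rw [eq_neg_iff_add_eq_zero, ← h]; ring
  have hDu0 : D u ≠ 0 := by
    intro h
    rw [h, mul_zero, neg_zero] at hkey2
    rcases mul_eq_zero.1 hkey2 with h' | h'
    · exact hf (by exact_mod_cast h')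
    · rcases mul_eq_zero.1 h' with h'' | h''
      · exact hu0 h''
      · exact hDπ0 h''
  have h4 := congrArg v.ord hkey2
  rw [ord_intCast_mul v _ hf (mul_ne_zero hu0 hDπ0), v.ord_mul hu0 hDπ0, hordu, zero_add,
    ord_neg, v.ord_mul hπ0 hDu0, hπ] at h4
  omega

/-- At a `D`-stable place the value of a `D`-constant function is a constant of the derivation
`∂` induced by `D` on `K`: if `D f = 0` and `f ≡ c` at `v`, then `∂ c = 0`. -/
theorem der_const_eq_zero_of_dStable (hD : DStable D v) (d : K → K)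
    (hd : ∀ c : K, D (algebraMap K F c) = algebraMap K F (d c))
    {f : F} (hDf : D f = 0) {c : K}
    (hc : f - algebraMap K F c = 0 ∨ 0 < v.ord (f - algebraMap K F c)) : d c = 0 := by
  by_contra hdc
  have h1 : D (f - algebraMap K F c) = -algebraMap K F (d c) := by
    rw [map_sub, hDf, hd, zero_sub]
  have h2 : v.ord (D (f - algebraMap K F c)) = 0 := by
    rw [h1, ord_neg, ord_algebraMap]
  have h3 : D (f - algebraMap K F c) ≠ 0 := by
    rw [h1, neg_ne_zero]
    exact fun h => hdc ((map_eq_zero _).1 h)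
  rcases hc with hc | hc
  · rw [hc, map_zero] at h3
    exact h3 rfl
  · rcases hD.2 _ hc with h | h
    · exact h3 h
    · omega

end LogDer

end Fermat.Agent.S17.H770
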