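import Mathlib
import Fermat.Agent.S17.H797.DerDefs
import Fermat.Agent.S17.H770.DerLaurent
import Fermat.Agent.S17.H770.DerPlace
import Fermat.Agent.S29.H871.Concrete
import Fermat.Agent.Lib.RR.H804.Modular

/-!
# S17 / G-DIV, piece DER-a (helper770): places of constant type

`stmtDERa : H797.StmtDERa N L` : at a place `P` of `F_L` on which some function with rational
`q`-expansion has a zero or a pole, the coefficientwise derivation `D` satisfies
`ord_P (D h) ≥ ord_P h`.

Proof.  `P` is the base change of a place `v` of `F_{ℚ̄}` (helper871's dichotomy), so every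
`h ∈ O_P` is a quotient `μ(x)/μ(s)` with `x, s ∈ O_v ⊗ L` and `μ(s)` a unit at `P`.  `D` kills
`F_{ℚ̄}` (derivations kill algebraic numbers), hence maps the image of `μ` into itself.  So
`D (O_P) ⊆ O_P` (`dIntegral_of_approx`); `P` is a zero or pole of a `D`-constant function, hence
`D (𝔪_P) ⊆ 𝔪_P` (`dStable_of_der_eq_zero`), and `ord_le_ord_der_of_dStable` concludes.
-/

set_option autoImplicit false
set_option linter.unusedSectionVars false
set_option linter.style.haveILetI false

noncomputable section

open AlgebraicCurve ModularCurve TensorProduct IntermediateField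

namespace Fermat.Agent.S17.H770

open Fermat.Agent.Lib.RR Fermat.Agent.S17.GDiv Fermat.Agent.S17.H797 Fermat.Agent.S29.H871

/-- Characteristic `0`: a derivation kills the algebraic numbers. -/
theorem derivation_eq_zero_of_isAlgebraic {L : Type*} [Field L] [Algebra ℚ L]
    (d : Derivation ℚ L L) {x : L} (hx : IsAlgebraic ℚ x) : d x = 0 := by
  have hint : IsIntegral ℚ x := hx.isIntegral
  have hsep : (minpoly ℚ x).Separable := (minpoly.irreducible hint).separable
  have h0 : Polynomial.aeval x (minpoly ℚ x) = 0 := minpoly.aeval ℚ x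
  have h1 := congrArg d h0
  rw [Derivation.map_aeval, map_zero, smul_eq_mul] at h1
  have h2 : Polynomial.aeval x (Polynomial.derivative (minpoly ℚ x)) ≠ 0 :=
    hsep.aeval_derivative_ne_zero h0
  exact (mul_eq_zero.1 h1).resolve_left h2

section Main

variable (N : ℕ) [NeZero N] (L : Type) [Field L] [Algebra ℚ L] [Algebra Qb L]
  [IsScalarTower ℚ Qb L] [IsAlgClosed L]

attribute [local instance] lbcAlgebra lbcAlgebraBase lbc_isScalarTower₁ lbc_isScalarTower₂

/-- The base change `F_{ℚ̄} → F_L` of a function with rational `q`-expansion. -/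
theorem algebraMap_bcQ_bar (u : modularFunctionFieldFull N) :
    algebraMap (modularFunctionFieldBar N) (FL N L)
      ⟨coeffEmb Qb (u : LaurentSeries ℚ), coeffEmb_mem_laurentBaseChange Qb u.2⟩ = bcQ N L u := by
  apply Subtype.ext
  show coeffMap (algebraMap Qb L) (coeffEmb Qb (u : LaurentSeries ℚ)) = coeffEmb L _
  rw [coeffEmb, coeffMap_coeffMap, coeffEmb]
  exact coeffMap_congr (IsScalarTower.algebraMap_eq ℚ Qb L).symm _

/-- The coefficientwise derivation kills `F_{ℚ̄}`. -/
theorem fieldDer_algebraMap_bar (d : Derivation ℚ L L) (a : modularFunctionFieldBar N) :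
    fieldDer d (modularFunctionFieldFull N) (algebraMap (modularFunctionFieldBar N) (FL N L) a)
      = 0 := by
  rw [fieldDer_eq_zero_iff]
  intro m
  show d ((coeffMap (algebraMap Qb L) (a : LaurentSeries Qb)).coeff m) = 0
  rw [coeffMap_coeff]
  have halg : Algebra.IsAlgebraic ℚ Qb := AlgebraicClosure.isAlgebraic ℚ
  exact derivation_eq_zero_of_isAlgebraic d
    ((halg.isAlgebraic ((a : LaurentSeries Qb).coeff m)).algebraMap)

/-- The coefficientwise derivation maps the image of `O_v ⊗ L` into itself. -/
theorem exists_fieldDer_muA (d : Derivation ℚ L L) (v : Place Qb (modularFunctionFieldBar N))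
    (x : v.toValuationSubring ⊗[Qb] L) :
    ∃ y : v.toValuationSubring ⊗[Qb] L,
      fieldDer d (modularFunctionFieldFull N) (muA L (FL N L) v x) = muA L (FL N L) v y := by
  induction x using TensorProduct.induction_on with
  | zero => exact ⟨0, by simp⟩
  | tmul a c =>
    refine ⟨a ⊗ₜ[Qb] d c, ?_⟩
    rw [muA_tmul, muA_tmul, Derivation.leibniz, fieldDer_algebraMap_bar, fieldDer_algebraMap,
      smul_zero, add_zero, smul_eq_mul]
  | add x y hx hy =>
    obtain ⟨x', hx'⟩ := hx
    obtain ⟨y', hy'⟩ := hy
    exact ⟨x' + y', by rw [map_add, map_add, map_add, hx', hy']⟩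

/-- **DER-a**, with a chosen embedding `ℚ̄ → L`. -/
theorem stmtDERa_of_algebra : StmtDERa N L := by
  intro d P hP h
  classical
  have hchar : CharZero (FL N L) :=
    charZero_of_injective_algebraMap (algebraMap ℚ (FL N L)).injective
  have hce : IsConstExt Qb (modularFunctionFieldBar N) L (FL N L) :=
    isConstExt_lbc (modularFunctionFieldFull N)
  have ht := Fermat.Agent.Lib.RR.H804.transcendental_jF N
  have hfin := Fermat.Agent.Lib.RR.H804.finiteDimensional_jF N
  obtain ⟨u, hu⟩ := hP
  -- `P` is a base change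
  obtain ⟨v, rfl⟩ := exists_bcPlace_eq (K' := L) (F' := FL N L) ht P
    ⟨⟨coeffEmb Qb (u : LaurentSeries ℚ), coeffEmb_mem_laurentBaseChange Qb u.2⟩, by
      show (P.ord (algebraMap (modularFunctionFieldBar N) (FL N L) _)) ≠ 0
      rw [algebraMap_bcQ_bar]
      exact hu⟩
  set P := bcPlace L (FL N L) ht v with hPdef
  have hrat : IsRationalPlace v := isRationalPlace_all ht v
  have h1 : ∀ f ∈ v.toValuationSubring,
      0 ≤ P.ord (algebraMap (modularFunctionFieldBar N) (FL N L) f) := by
    intro f hf
    rw [hPdef, ord_bcPlace]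
    exact ord_nonneg_of_mem v hf
  obtain ⟨π, hπ⟩ := IsDiscreteValuationRing.exists_irreducible v.toValuationSubring
  have h2 : 0 < P.ord (algebraMap (modularFunctionFieldBar N) (FL N L) (π : _)) := by
    rw [hPdef, ord_bcPlace, v.ord_coe_irreducible hπ]
    norm_num
  set D := fieldDer d (modularFunctionFieldFull N) with hD
  -- `D (O_P) ⊆ O_P`
  have hint : DIntegral D P := by
    refine dIntegral_of_approx D P (Set.range (muA L (FL N L) v)) ?_ ?_
    · rintro a ⟨x, rfl⟩ -
      obtain ⟨y, hy⟩ := exists_fieldDer_muA N L d v x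
      rw [hD, hy]
      exact ord_nonneg_of_mem P (muA_mem_of_le P h1 y)
    · intro f hf
      have hfmem : f ∈ P.toValuationSubring := mem_of_ord_nonneg P hf
      obtain ⟨x, s, hs, hxs⟩ : IsIntegralBC L (FL N L) hrat f := hfmem
      have hs0 : muA L (FL N L) v s ≠ 0 := muA_ne_zero (eps_ne_zero_ne_zero hrat hs)
      refine ⟨_, ⟨x, rfl⟩, _, ⟨s, rfl⟩, hs0,
        ord_muA_eq_zero_of_eps_ne_zero hrat P h1 hπ h2 hs,
        ord_nonneg_of_mem P (muA_mem_of_le P h1 x), ?_⟩
      rw [← hxs]
      field_simp
  -- `D (𝔪_P) ⊆ 𝔪_P`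
  have hst : DStable D P :=
    dStable_of_der_eq_zero D P hint (f := bcQ N L u)
      (fieldDer_coeffEmb d (modularFunctionFieldFull N) u.2) hu
  have hDL : DL d h = D h := rfl
  rw [hDL]
  rcases eq_or_ne h 0 with rfl | h0
  · left
    exact map_zero D
  · exact ord_le_ord_der_of_dStable D P hst h0

end Main

/-- **DER-a** (exact shape of `H797/DerDefs.lean`): at a place of constant type the
coefficientwise derivation does not lower the order. -/
theorem stmtDERa (N : ℕ) [NeZero N] (L : Type) [Field L] [Algebra ℚ L] [IsAlgClosed L] :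
    StmtDERa N L := by
  haveI halg : Algebra.IsAlgebraic ℚ Qb := AlgebraicClosure.isAlgebraic ℚ
  let φ : Qb →ₐ[ℚ] L := IsAlgClosed.lift
  letI : Algebra Qb L := φ.toRingHom.toAlgebra
  haveI : IsScalarTower ℚ Qb L := IsScalarTower.of_algebraMap_eq fun r => (φ.commutes r).symm
  exact stmtDERa_of_algebra N L

end Fermat.Agent.S17.H770
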