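import Mathlib

/-!
# S17 / G-DIV piece DER-0 (helper770): existence of derivations (Mathlib only)

* `exists_derivation_ext_of_formallyEtale`: a derivation `S → T` extends along a formally
  étale map `S → T` to a derivation `T → T`.
* `exists_derivation_of_isTranscendenceBasis`: prescribed values on a transcendence basis.
* `exists_derivation_eq_one`: `K ⊆ L` fields of characteristic `0`, `s ∈ L` transcendental over
  `K`: there is a `K`-derivation `∂` of `L` with `∂ s = 1`.
-/

set_option autoImplicit false

namespace Fermat.Agent.S17.H770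

open KaehlerDifferential TensorProduct

section Ext

variable (R S T : Type*) [CommRing R] [CommRing S] [CommRing T]
variable [Algebra R S] [Algebra R T] [Algebra S T] [IsScalarTower R S T]

/-- Extension of a derivation along a formally étale map. -/
theorem exists_derivation_ext_of_formallyEtale [Algebra.FormallyEtale S T]
    (d : Derivation R S T) : ∃ D : Derivation R T T, ∀ s : S, D (algebraMap S T s) = d s := by
  let l : Ω[S⁄R] →ₗ[S] T := d.liftKaehlerDifferential
  let lT : T ⊗[S] Ω[S⁄R] →ₗ[T] T := LinearMap.liftBaseChange T l
  let e := KaehlerDifferential.tensorKaehlerEquivOfFormallyEtale R S T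
  let L : Ω[T⁄R] →ₗ[T] T := lT ∘ₗ e.symm.toLinearMap
  refine ⟨L.compDer (KaehlerDifferential.D R T), fun s => ?_⟩
  simp [L, lT, l, e, KaehlerDifferential.tensorKaehlerEquivOfFormallyEtale_symm_D_algebraMap]

end Ext

section Field

variable {K L : Type*} [Field K] [Field L] [Algebra K L] [CharZero K]

open scoped IntermediateField.algebraAdjoinAdjoin in
/-- In characteristic `0` a derivation can be prescribed arbitrarily on a transcendence basis. -/
theorem exists_derivation_of_isTranscendenceBasis {ι : Type*} {v : ι → L}
    (hv : IsTranscendenceBasis K v) (f : ι → L) :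
    ∃ D : Derivation K L L, ∀ i, D (v i) = f i := by
  classical
  let e : MvPolynomial ι K ≃ₐ[K] Algebra.adjoin K (Set.range v) := hv.1.aevalEquiv
  -- derivation on the polynomial subalgebra
  obtain ⟨d, hd⟩ : ∃ d : Derivation K (Algebra.adjoin K (Set.range v)) L,
      ∀ i, d ⟨v i, Algebra.subset_adjoin ⟨i, rfl⟩⟩ = f i := by
    let modS : Module (MvPolynomial ι K) L :=
      Module.compHom L (e : MvPolynomial ι K →+* Algebra.adjoin K (Set.range v))
    have hsm : ∀ (p : MvPolynomial ι K) (x : L), p • x = (e p : L) * x := fun p x => rfl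
    have : IsScalarTower K (MvPolynomial ι K) L := ⟨fun c p x => by
      rw [hsm, hsm, map_smul, Subalgebra.coe_smul, smul_mul_assoc]⟩
    let d₀ : Derivation K (MvPolynomial ι K) L := MvPolynomial.mkDerivation K f
    refine ⟨Derivation.mk' (d₀.toLinearMap ∘ₗ e.symm.toLinearMap) ?_, ?_⟩
    · intro a b
      simp only [LinearMap.comp_apply, AlgEquiv.toLinearMap_apply, Derivation.coeFn_coe,
        map_mul, Derivation.leibniz, hsm, AlgEquiv.apply_symm_apply]
      rfl
    · intro i
      have : e.symm ⟨v i, Algebra.subset_adjoin ⟨i, rfl⟩⟩ = MvPolynomial.X i := by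
        rw [AlgEquiv.symm_apply_eq]
        ext
        simp [e]
      simp [this, d₀, MvPolynomial.mkDerivation_X]
  have : Algebra.FormallyEtale (Algebra.adjoin K (Set.range v))
      (IntermediateField.adjoin K (Set.range v)) := .of_isLocalization (nonZeroDivisors _)
  have : Algebra.IsAlgebraic (IntermediateField.adjoin K (Set.range v)) L :=
    hv.isAlgebraic_field
  have : CharZero (IntermediateField.adjoin K (Set.range v)) :=
    charZero_of_injective_algebraMap (algebraMap K _).injective
  have : Algebra.IsSeparable (IntermediateField.adjoin K (Set.range v)) L := inferInstance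
  have : Algebra.FormallyEtale (IntermediateField.adjoin K (Set.range v)) L :=
    Algebra.FormallyEtale.of_isSeparable _ L
  have : Algebra.FormallyEtale (Algebra.adjoin K (Set.range v)) L :=
    .comp _ (IntermediateField.adjoin K (Set.range v)) _
  obtain ⟨D, hD⟩ := exists_derivation_ext_of_formallyEtale K (Algebra.adjoin K (Set.range v)) L d
  exact ⟨D, fun i => by simpa [hd] using hD ⟨v i, Algebra.subset_adjoin ⟨i, rfl⟩⟩⟩

/-- `K ⊆ L` fields of characteristic `0`, `s ∈ L` transcendental over `K`: there is a
`K`-derivation `∂` of `L` with `∂ s = 1`. -/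
theorem exists_derivation_eq_one (s : L) (hs : Transcendental K s) :
    ∃ D : Derivation K L L, D s = 1 := by
  classical
  have h1 : AlgebraicIndepOn K id ({s} : Set L) :=
    (algebraicIndependent_singleton_iff (R := K) (x := fun i : ({s} : Set L) => id (i : L))
      ⟨s, rfl⟩).2 hs
  obtain ⟨t, hst, ht⟩ := exists_isTranscendenceBasis_superset h1
  obtain ⟨D, hD⟩ := exists_derivation_of_isTranscendenceBasis ht
    (fun i => if (i : L) = s then 1 else 0)
  exact ⟨D, by simpa using hD ⟨s, hst rfl⟩⟩

end Field

end Fermat.Agent.S17.H770
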