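import Fermat.Agent.S17.GDiv.Defs
import Fermat.Agent.S17.H770.DerExt
import Fermat.Agent.S17.H770.DerLaurent

/-!
# S17 / G-DIV (helper770): the pieces `StmtDPRES` and `StmtDEREX` of `GDiv/Defs.lean`
-/

set_option autoImplicit false

open AlgebraicCurve ModularCurve

namespace Fermat.Agent.S17.H770

open Fermat.Agent.S17.GDiv

/-- **DPRES**: the coefficientwise derivation preserves `F_L`. -/
theorem stmtDPRES (N : ℕ) (L : Type) [Field L] [Algebra ℚ L] : StmtDPRES N L := by
  intro d f
  exact ⟨fieldDer d (modularFunctionFieldFull N) f, fun m => rfl⟩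

/-- **DEREX**: enough derivations. -/
theorem stmtDEREX (L : Type) [Field L] [Algebra ℚ L] : StmtDEREX L := by
  intro K₁ hK₁ x hx
  have : CharZero L := charZero_of_injective_algebraMap (algebraMap ℚ L).injective
  have : CharZero K₁ := charZero_of_injective_algebraMap (algebraMap ℚ K₁).injective
  have htr : Transcendental K₁ x := fun halg => hx (hK₁ x halg)
  obtain ⟨D, hD⟩ := exists_derivation_eq_one (K := K₁) x htr
  refine ⟨D.restrictScalars ℚ, fun a ha => ?_, ?_⟩
  · exact D.map_algebraMap (⟨a, ha⟩ : K₁)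
  · show D x ≠ 0
    rw [hD]
    exact one_ne_zero

end Fermat.Agent.S17.H770
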